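/-
Programme K (S52), brick K2 (helper11): Klein's icosahedral forms `f, H, T` as explicit
polynomial functions of two variables, homogeneity, Klein's syzygy, and the Bezout certificates
showing that `H` and `T` have no common zero away from the origin (characteristic zero).
-/
import Mathlib

set_option autoImplicit false

namespace Fermat.Agent.S52K2.Forms

variable {k : Type*} [Field k]

/-- Klein's vertex form `f = z₁ z₂ (z₁¹⁰ + 11 z₁⁵ z₂⁵ - z₂¹⁰)` (degree 12). -/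
def ff (z1 z2 : k) : k := z1 * z2 * (z1 ^ 10 + 11 * z1 ^ 5 * z2 ^ 5 - z2 ^ 10)

/-- Klein's face form `H` (degree 20). -/
def Hf (z1 z2 : k) : k :=
  -(z1 ^ 20 + z2 ^ 20) + 228 * (z1 ^ 15 * z2 ^ 5 - z1 ^ 5 * z2 ^ 15) - 494 * z1 ^ 10 * z2 ^ 10

/-- Klein's edge form `T` (degree 30). -/
def Tf (z1 z2 : k) : k :=
  (z1 ^ 30 + z2 ^ 30) + 522 * (z1 ^ 25 * z2 ^ 5 - z1 ^ 5 * z2 ^ 25)
    - 10005 * (z1 ^ 20 * z2 ^ 10 + z1 ^ 10 * z2 ^ 20)

theorem ff_smul (c z1 z2 : k) : ff (c * z1) (c * z2) = c ^ 12 * ff z1 z2 := by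
  unfold ff; ring

theorem Hf_smul (c z1 z2 : k) : Hf (c * z1) (c * z2) = c ^ 20 * Hf z1 z2 := by
  unfold Hf; ring

theorem Tf_smul (c z1 z2 : k) : Tf (c * z1) (c * z2) = c ^ 30 * Tf z1 z2 := by
  unfold Tf; ring

/-- Klein's syzygy `T² + H³ = 1728 f⁵`. -/
theorem syzygy (z1 z2 : k) : Tf z1 z2 ^ 2 + Hf z1 z2 ^ 3 = 1728 * ff z1 z2 ^ 5 := by
  unfold Tf Hf ff; ring

/-- The two forms in the variables `X = z₁⁵`, `Y = z₂⁵`. -/
def H5 (X Y : k) : k := -(X ^ 4 + Y ^ 4) + 228 * (X ^ 3 * Y - X * Y ^ 3) - 494 * X ^ 2 * Y ^ 2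

def T5 (X Y : k) : k :=
  (X ^ 6 + Y ^ 6) + 522 * (X ^ 5 * Y - X * Y ^ 5) - 10005 * (X ^ 4 * Y ^ 2 + X ^ 2 * Y ^ 4)

theorem Hf_eq_H5 (z1 z2 : k) : Hf z1 z2 = H5 (z1 ^ 5) (z2 ^ 5) := by
  unfold Hf H5; ring

theorem Tf_eq_T5 (z1 z2 : k) : Tf z1 z2 = T5 (z1 ^ 5) (z2 ^ 5) := by
  unfold Tf T5; ring

/-- Bezout certificate (helper23, report 240): `A₁ H + B₁ T = c X⁹`. -/
theorem bezout_X (X Y : k) :
    (-2022161 * Y ^ 5 + 1055557719 * X * Y ^ 4 + 20237108822 * X ^ 2 * Y ^ 3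
        + 103588896 * X ^ 3 * Y ^ 2 + 20237705983 * X ^ 4 * Y - 950431323 * X ^ 5) * H5 X Y
      + (-2022161 * Y ^ 3 - 461063031 * X * Y ^ 2 - 1001301767 * X ^ 2 * Y
        + 455818677 * X ^ 3) * T5 X Y
      = 1406250000 * X ^ 9 := by
  unfold H5 T5; ring

/-- Bezout certificate: `A₂ H + B₂ T = c Y⁹`. -/
theorem bezout_Y (X Y : k) :
    (-950431323 * Y ^ 5 - 20237705983 * X * Y ^ 4 + 103588896 * X ^ 2 * Y ^ 3
        - 20237108822 * X ^ 3 * Y ^ 2 + 1055557719 * X ^ 4 * Y + 2022161 * X ^ 5) * H5 X Y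
      + (455818677 * Y ^ 3 + 1001301767 * X * Y ^ 2 - 461063031 * X ^ 2 * Y
        + 2022161 * X ^ 3) * T5 X Y
      = 1406250000 * Y ^ 9 := by
  unfold H5 T5; ring

/-- In characteristic zero `H` and `T` have no common zero except the origin. -/
theorem eq_zero_of_Hf_Tf_eq_zero [CharZero k] {z1 z2 : k} (hH : Hf z1 z2 = 0)
    (hT : Tf z1 z2 = 0) : z1 = 0 ∧ z2 = 0 := by
  rw [Hf_eq_H5] at hH
  rw [Tf_eq_T5] at hT
  have hc : (1406250000 : k) ≠ 0 := by norm_num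
  have h1 := bezout_X (z1 ^ 5) (z2 ^ 5)
  have h2 := bezout_Y (z1 ^ 5) (z2 ^ 5)
  rw [hH, hT, mul_zero, mul_zero, add_zero] at h1 h2
  constructor
  · have : (z1 ^ 5) ^ 9 = 0 := by
      rcases mul_eq_zero.mp h1.symm with h | h
      · exact absurd h hc
      · exact h
    exact pow_eq_zero_iff (by norm_num) |>.mp (pow_eq_zero_iff (by norm_num) |>.mp this)
  · have : (z2 ^ 5) ^ 9 = 0 := by
      rcases mul_eq_zero.mp h2.symm with h | h
      · exact absurd h hc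
      · exact h
    exact pow_eq_zero_iff (by norm_num) |>.mp (pow_eq_zero_iff (by norm_num) |>.mp this)

end Fermat.Agent.S52K2.Forms
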