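/-
Programme K (S52), K2 glue (helper11): bridges between the explicit data `S52K.Klein56`
(helper56's B0) and the forms `S52K2.Forms` used by the fibre theorem, and the primitive fifth
root of unity.
-/
import Mathlib
import Fermat.Agent.S52K.Klein56.Defs
import Fermat.Agent.S52K2.Forms

set_option autoImplicit false

namespace Fermat.Agent.S52K2.Bridge56

open Fermat.Agent.S52K.Klein56 Fermat.Agent.S52K2.Forms

variable {k : Type*} [Field k]

theorem kf_eq_ff (a b : k) : kf a b = ff a b := by
  unfold kf ff; ring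

theorem kH_eq_Hf (a b : k) : kH a b = Hf a b := by
  unfold kH Hf; ring

theorem kT_eq_Tf (a b : k) : kT a b = Tf a b := by
  unfold kT Tf; ring

/-- A root of the fifth cyclotomic polynomial is a primitive fifth root of unity. -/
theorem isPrimitiveRoot_five [CharZero k] {ζ : k} (hζ : ζ ^ 4 + ζ ^ 3 + ζ ^ 2 + ζ + 1 = 0) :
    IsPrimitiveRoot ζ 5 := by
  have h5 : ζ ^ 5 = 1 := by linear_combination (ζ - 1) * hζ
  have h1 : ζ ≠ 1 := by
    intro h
    rw [h] at hζ
    norm_num at hζ
  have : Fact (Nat.Prime 5) := ⟨by norm_num⟩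
  have ho : orderOf ζ = 5 := orderOf_eq_prime h5 h1
  rw [← ho]
  exact IsPrimitiveRoot.orderOf ζ

end Fermat.Agent.S52K2.Bridge56
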