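/-
Programme K (S52), brick K2 complement (helper11): the pigeonhole argument of `S52K2.Words` with
the membership of the word retained, and its consequence that the attached basis `B v` DETERMINES
the point `v` inside the fibre (`eq_of_basis_eq`).  Specialised to a package
`TorsBasis99.KleinPts k` this gives the field `inj` of `S52K3.KleinData.Ext`: on a fibre of
`(H, T)` the level structure `(Q, R)` determines `v` up to `μ₅` (`inj_of_pts`).
-/
import Mathlib
import Fermat.Agent.S52K2.FibresOfPts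

set_option autoImplicit false

open WeierstrassCurve WeierstrassCurve.Affine

namespace Fermat.Agent.S52K2.Inj

open Fermat.Agent.S52K.TorsBasis99 Fermat.Agent.S52K.TorsBasis99.KleinPts
open Fermat.Agent.S52K2.Forms Fermat.Agent.S52K2.FibreCard
open Fermat.Agent.S52K2.Words Fermat.Agent.S52K2.Orbit Fermat.Agent.S52K2.FibresOfPts

section Pigeonhole

variable {V A : Type*} [AddCommGroup A] [Module (ZMod 5) A]
variable (Φ : Set V) (sS sT : V → V) (hS : ∀ v ∈ Φ, sS v ∈ Φ) (hT : ∀ v ∈ Φ, sT v ∈ Φ)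
  (B : V → A × A) (mS mT : M4)
  (hBS : ∀ v ∈ Φ, B (sS v) = actM mS (B v)) (hBT : ∀ v ∈ Φ, B (sT v) = actM mT (B v))

include hS hT hBS hBT in
/-- The abstract orbit theorem, keeping track of the word. -/
theorem exists_word_mem (hfin : Φ.Finite) (hcard : Φ.ncard ≤ 120)
    (words : List (List Bool)) (hlen : words.length = 120)
    (hnodup : (words.map (evalWord mS mT)).Nodup)
    {v : V} (hv : v ∈ Φ)
    (hind : ∀ a b : ZMod 5, a • (B v).1 + b • (B v).2 = 0 → a = 0 ∧ b = 0) :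
    ∀ v' ∈ Φ, ∃ w ∈ words, v' = applyWord sS sT w v := by
  classical
  have hwn : words.Nodup := List.Nodup.of_map _ hnodup
  have hinj : ∀ x ∈ words, ∀ y ∈ words, evalWord mS mT x = evalWord mS mT y → x = y :=
    fun x hx y hy h => List.inj_on_of_nodup_map hnodup hx hy h
  set L : List V := words.map (fun w => applyWord sS sT w v) with hL
  have hLn : L.Nodup := by
    apply List.Nodup.map_on _ hwn
    intro x hx y hy hxy
    apply hinj x hx y hy
    apply actM_injective hind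
    rw [← B_applyWord Φ sS sT hS hT B mS mT hBS hBT hv x,
      ← B_applyWord Φ sS sT hS hT B mS mT hBS hBT hv y, hxy]
  have hsub : (L.toFinset : Set V) ⊆ Φ := by
    intro x hx
    rw [Finset.mem_coe, List.mem_toFinset, hL, List.mem_map] at hx
    obtain ⟨w, _, rfl⟩ := hx
    exact applyWord_mem Φ sS sT hS hT hv w
  have hcardL : (L.toFinset : Set V).ncard = 120 := by
    rw [Set.ncard_coe_finset, List.toFinset_card_of_nodup hLn, hL, List.length_map, hlen]
  have heq : (L.toFinset : Set V) = Φ :=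
    Set.eq_of_subset_of_ncard_le hsub (by rw [hcardL]; exact hcard) hfin
  intro v' hv'
  rw [← heq, Finset.mem_coe, List.mem_toFinset, hL, List.mem_map] at hv'
  obtain ⟨w, hw, rfl⟩ := hv'
  exact ⟨w, hw, rfl⟩

include hS hT hBS hBT in
/-- Inside `Φ` the basis determines the point. -/
theorem eq_of_basis_eq (hfin : Φ.Finite) (hcard : Φ.ncard ≤ 120)
    (words : List (List Bool)) (hlen : words.length = 120)
    (hnodup : (words.map (evalWord mS mT)).Nodup) (hnil : [] ∈ words)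
    {v : V} (hv : v ∈ Φ)
    (hind : ∀ a b : ZMod 5, a • (B v).1 + b • (B v).2 = 0 → a = 0 ∧ b = 0)
    {v' : V} (hv' : v' ∈ Φ) (hB : B v' = B v) : v' = v := by
  obtain ⟨w, hw, rfl⟩ := exists_word_mem Φ sS sT hS hT B mS mT hBS hBT hfin hcard words hlen
    hnodup hv hind v' hv'
  have h1 := B_applyWord Φ sS sT hS hT B mS mT hBS hBT hv w
  have h2 : actM (evalWord mS mT w) (B v) = actM (evalWord mS mT []) (B v) := by
    rw [← h1, hB, evalWord_nil, actM_one]
  have h3 : evalWord mS mT w = evalWord mS mT [] := actM_injective hind h2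
  have h4 : w = [] := List.inj_on_of_nodup_map hnodup hw hnil h3
  rw [h4, applyWord_nil]

end Pigeonhole

theorem nil_mem_stdWords : ([] : List Bool) ∈ stdWords := by
  unfold stdWords
  exact List.mem_cons_self

section Fibre

variable {k : Type*} [Field k] {A : Type*} [AddCommGroup A] [Module (ZMod 5) A]

/-- Inside the fibre of `(f, H, T)` the basis determines the point. -/
theorem fibre_eq_of_basis_eq {f0 h0 t0 : k} (hf0 : f0 ≠ 0) (hh0 : h0 ≠ 0) (ht0 : t0 ≠ 0)
    (hΔ : h0 ^ 3 + t0 ^ 2 ≠ 0)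
    {sS sT : k × k → k × k} (hS : Preserves sS) (hT : Preserves sT)
    (B : k × k → A × A)
    (hBS : ∀ v ∈ fibre f0 h0 t0, B (sS v) = (-(B v).2, (B v).1))
    (hBT : ∀ v ∈ fibre f0 h0 t0, B (sT v) = ((B v).1, (B v).1 + (B v).2))
    {v : k × k} (hv : v ∈ fibre f0 h0 t0)
    (hind : ∀ a b : ZMod 5, a • (B v).1 + b • (B v).2 = 0 → a = 0 ∧ b = 0)
    {v' : k × k} (hv' : v' ∈ fibre f0 h0 t0) (hB : B v' = B v) : v' = v := by
  obtain ⟨hfin, hcard⟩ := fibre_finite_card_le hf0 hh0 ht0 hΔ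
  refine eq_of_basis_eq (fibre f0 h0 t0) sS sT (fun v hv => hS.mem_fibre hv)
    (fun v hv => hT.mem_fibre hv) B stdS stdT ?_ ?_ hfin hcard stdWords length_stdWords
    nodup_stdWords nil_mem_stdWords hv hind hv' hB
  · intro v hv
    rw [hBS v hv]
    simp [actM, stdS]
  · intro v hv
    rw [hBT v hv]
    simp [actM, stdT]

end Fibre

section Pts

variable {k : Type*} [Field k] [CharZero k] {P : KleinPts k}

/-- Inside the fibre of `(f, H, T)` the coordinates of `Q` and `R` determine the point. -/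
theorem eq_of_coords_eq (C : Compat P) {v v' : k × k} (hf : P.f v ≠ 0) (hH : P.H v ≠ 0)
    (hT : P.T v ≠ 0) (e1 : P.f v' = P.f v) (e2 : P.H v' = P.H v) (e3 : P.T v' = P.T v)
    (x1 : P.XQ v' = P.XQ v) (y1 : P.YQ v' = P.YQ v) (x2 : P.XR v' = P.XR v)
    (y2 : P.YR v' = P.YR v) : v' = v := by
  classical
  have hht := sum_ne_zero P hf
  have hΔ := curve_Δ_ne_zero hht
  have hv : v ∈ fibre (P.f v) (P.H v) (P.T v) := ⟨(C.f_eq v).symm, (C.H_eq v).symm, (C.T_eq v).symm⟩
  have hv' : v' ∈ fibre (P.f v) (P.H v) (P.T v) :=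
    ⟨(C.f_eq v').symm.trans e1, (C.H_eq v').symm.trans e2, (C.T_eq v').symm.trans e3⟩
  have hmem : ∀ u ∈ fibre (P.f v) (P.H v) (P.T v), P.H u = P.H v ∧ P.T u = P.T v := by
    intro u hu
    exact ⟨(C.H_eq u).trans hu.2.1, (C.T_eq u).trans hu.2.2⟩
  refine fibre_eq_of_basis_eq hf hH hT hht (preserves_gS C) (preserves_gT C)
    (basis (P := P) hΔ)
    (fun u hu => basis_gS hΔ (hmem u hu))
    (fun u hu => basis_gT hΔ (hmem u hu))
    hv (basis_indep hΔ (hmem v hv)) hv' ?_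
  rw [basis_of_mem hΔ (hmem v hv), basis_of_mem hΔ (hmem v' hv')]
  have p1 : ptR hΔ (⟨v', hmem v' hv'⟩ : P.Fib (P.H v) (P.T v))
      = ptR hΔ (⟨v, hmem v hv⟩ : P.Fib (P.H v) (P.T v)) := some_congr x2 y2 _ _
  have p2 : ptQ hΔ (⟨v', hmem v' hv'⟩ : P.Fib (P.H v) (P.T v))
      = ptQ hΔ (⟨v, hmem v hv⟩ : P.Fib (P.H v) (P.T v)) := some_congr x1 y1 _ _
  refine Prod.ext (Subtype.ext ?_) (Subtype.ext ?_)
  · exact p1
  · simp only
    rw [p2]

omit [CharZero k] in
/-- A function invariant under `v ↦ ζ • v` is invariant under `v ↦ ζ ^ n • v`. -/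
theorem scal_pow {ζ : k} {F : k × k → k} (hF : ∀ v, F (ζ • v) = F v) (n : ℕ) (v : k × k) :
    F (ζ ^ n • v) = F v := by
  induction n with
  | zero => rw [pow_zero, one_smul]
  | succ n ih => rw [pow_succ', mul_smul, hF, ih]

/-- **The field `inj` of `KleinData.Ext`** at the level of the package: on a fibre of `(H, T)`
the level structure `(Q, R)` determines `v` up to `μ₅`. -/
theorem inj_of_pts (C : Compat P) {ζ : k} (hζ : IsPrimitiveRoot ζ 5)
    (sXQ : ∀ v, P.XQ (ζ • v) = P.XQ v) (sYQ : ∀ v, P.YQ (ζ • v) = P.YQ v)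
    (sXR : ∀ v, P.XR (ζ • v) = P.XR v) (sYR : ∀ v, P.YR (ζ • v) = P.YR v)
    {v v' : k × k} (hf : P.f v ≠ 0) (hH : P.H v ≠ 0) (hT : P.T v ≠ 0)
    (e2 : P.H v' = P.H v) (e3 : P.T v' = P.T v)
    (x1 : P.XQ v' = P.XQ v) (y1 : P.YQ v' = P.YQ v) (x2 : P.XR v' = P.XR v)
    (y2 : P.YR v' = P.YR v) : ∃ j : ℕ, v' = ζ ^ j • v := by
  have hζ5 : ζ ^ 5 = 1 := hζ.pow_eq_one
  have h5 : (P.f v' / P.f v) ^ 5 = 1 := by
    have h1 := P.syz v
    have h2 := P.syz v'
    rw [e2, e3] at h2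
    have h3 : P.f v' ^ 5 = P.f v ^ 5 := by
      have : (1728 : k) * P.f v' ^ 5 = 1728 * P.f v ^ 5 := by rw [← h1, ← h2]
      exact mul_left_cancel₀ (by norm_num) this
    rw [div_pow, h3, div_self (pow_ne_zero 5 hf)]
  obtain ⟨i, -, hi⟩ := hζ.eq_pow_of_pow_eq_one h5
  have hfi : P.f v' = ζ ^ i * P.f v := by
    rw [hi]; field_simp
  obtain ⟨s1, s2, s3⟩ := forms_smul C (ζ ^ (2 * i)) v'
  have hp : ∀ n : ℕ, (ζ ^ (2 * i)) ^ n = ζ ^ (2 * i * n) := fun n => (pow_mul ζ (2 * i) n).symm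
  have q1 : ζ ^ (2 * i * 12) * ζ ^ i = 1 := by
    rw [← pow_add, show 2 * i * 12 + i = 5 * (5 * i) by ring, pow_mul, hζ5, one_pow]
  have q2 : ζ ^ (2 * i * 20) = 1 := by
    rw [show 2 * i * 20 = 5 * (8 * i) by ring, pow_mul, hζ5, one_pow]
  have q3 : ζ ^ (2 * i * 30) = 1 := by
    rw [show 2 * i * 30 = 5 * (12 * i) by ring, pow_mul, hζ5, one_pow]
  have f1 : P.f (ζ ^ (2 * i) • v') = P.f v := by
    rw [s1, hp, hfi, ← mul_assoc, q1, one_mul]
  have f2 : P.H (ζ ^ (2 * i) • v') = P.H v := by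
    rw [s2, hp, q2, one_mul, e2]
  have f3 : P.T (ζ ^ (2 * i) • v') = P.T v := by
    rw [s3, hp, q3, one_mul, e3]
  have hw : ζ ^ (2 * i) • v' = v :=
    eq_of_coords_eq C hf hH hT f1 f2 f3
      ((scal_pow sXQ _ _).trans x1) ((scal_pow sYQ _ _).trans y1)
      ((scal_pow sXR _ _).trans x2) ((scal_pow sYR _ _).trans y2)
  refine ⟨3 * i, ?_⟩
  rw [← hw, smul_smul, ← pow_add, show 3 * i + 2 * i = 5 * i by ring, pow_mul, hζ5, one_pow,
    one_smul]

end Pts

end Fermat.Agent.S52K2.Inj
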