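/-
Programme K (S52), brick K2b glue (helper11): the two outputs of K2 at the level of the final
interface `S52K3.KleinData`:

* `Gens.fibres : D.Fibres` (existence of a point over every `(h, t)` with `h³ + t² ≠ 0`, and
  transitivity of `μ₅ × Γ` on the fibres of `(H, T)`);
* `Gens.inj` : the field `inj` of `S52K3.KleinData.Ext` (on a fibre of `(H, T)` the level
  structure `(Q, R)` determines `v` up to `μ₅`),

for ANY `D : KleinData` whose forms are the explicit Klein forms of `S52K2.Forms` (the sign of `T`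
is free) and which comes with two linear maps `sS, sT` with the generator laws
`Q(S v) = -R(v)`, `R(S v) = Q(v)`, `Q(T v) = Q(v) - R(v)`, `R(T v) = R(v)`
such that all words in `sS, sT` lie in `D.Γ` (`S52Top.LawComp.foldl_mem_gam`).
-/
import Mathlib
import Fermat.Agent.S52K3.IfaceExt
import Fermat.Agent.S52Top.LawComp
import Fermat.Agent.S52K2.Inj

set_option autoImplicit false

open WeierstrassCurve WeierstrassCurve.Affine

namespace Fermat.Agent.S52K2.FibresOfData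

open Fermat.Agent.S52K3 Fermat.Agent.S52Top.LawComp Fermat.Agent.S52Top.LawComp.PreKlein
open Fermat.Agent.S52K2.Forms Fermat.Agent.S52K2.Exists Fermat.Agent.S52K2.FibreCard
open Fermat.Agent.S52K2.Words Fermat.Agent.S52K2.Orbit Fermat.Agent.S52K2.FibresOfPts
open Fermat.Agent.S52K2.Inj

/-! ### Points with given coordinates on a fixed curve -/

open scoped Classical in
/-- The point with coordinates `(x, y)` (junk value `0` if there is none). -/
noncomputable def pt (W : Affine Qb) (x y : Qb) : W.Point :=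
  if hn : W.Nonsingular x y then Point.some x y hn else 0

theorem pt_eq_of_ptEq {W : Affine Qb} {x y : Qb} {P : W.Point} (h : PtEq W x y P) :
    pt W x y = P := by
  obtain ⟨hn, rfl⟩ := h
  unfold pt
  rw [dif_pos hn]

open scoped Classical in
/-- The pair `(R, -Q)` in the `5`-torsion, from the four coordinates. -/
noncomputable def basisC (W : Affine Qb) (xq yq xr yr : Qb) : Tor5 W × Tor5 W :=
  if h5 : (5 : ℕ) • pt W xr yr = 0 ∧ (5 : ℕ) • pt W xq yq = 0 then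
    (⟨pt W xr yr, mem_Tor5.mpr h5.1⟩,
      ⟨-pt W xq yq, mem_Tor5.mpr (by rw [smul_neg, h5.2, neg_zero])⟩)
  else 0

theorem basisC_of {W : Affine Qb} {xq yq xr yr : Qb} (hr : (5 : ℕ) • pt W xr yr = 0)
    (hq : (5 : ℕ) • pt W xq yq = 0) :
    basisC W xq yq xr yr = (⟨pt W xr yr, mem_Tor5.mpr hr⟩,
      ⟨-pt W xq yq, mem_Tor5.mpr (by rw [smul_neg, hq, neg_zero])⟩) := by
  unfold basisC
  rw [dif_pos ⟨hr, hq⟩]

/-- What a `KleinData` says about a point `u` of the fibre over `(h, t)`, on the FIXED curve. -/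
theorem fib_facts (D : KleinData) {h t : Qb} {u : V2} (hH : D.H u = h) (hT : D.T u = t)
    (hf : D.f u ≠ 0) :
    (5 : ℕ) • pt (kleinCurve h t) (D.xQ u) (D.yQ u) = 0 ∧
    (5 : ℕ) • pt (kleinCurve h t) (D.xR u) (D.yR u) = 0 ∧
    (∀ a b : ℤ, a • pt (kleinCurve h t) (D.xQ u) (D.yQ u)
        + b • pt (kleinCurve h t) (D.xR u) (D.yR u) = 0 → (5 : ℤ) ∣ a ∧ (5 : ℤ) ∣ b) ∧
    (∀ (γ : V2 → V2) (a b c d : ℤ), (ofKleinData D).LawAt γ a b c d →
      pt (kleinCurve h t) (D.xQ (γ u)) (D.yQ (γ u))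
        = a • pt (kleinCurve h t) (D.xQ u) (D.yQ u) + c • pt (kleinCurve h t) (D.xR u) (D.yR u) ∧
      pt (kleinCurve h t) (D.xR (γ u)) (D.yR (γ u))
        = b • pt (kleinCurve h t) (D.xQ u) (D.yQ u)
          + d • pt (kleinCurve h t) (D.xR u) (D.yR u)) := by
  subst hH hT
  have eQ : pt (kleinCurve (D.H u) (D.T u)) (D.xQ u) (D.yQ u)
      = Point.some (D.xQ u) (D.yQ u) (D.nonsingQ u hf) := pt_eq_of_ptEq ⟨_, rfl⟩
  have eR : pt (kleinCurve (D.H u) (D.T u)) (D.xR u) (D.yR u)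
      = Point.some (D.xR u) (D.yR u) (D.nonsingR u hf) := pt_eq_of_ptEq ⟨_, rfl⟩
  rw [eQ, eR]
  refine ⟨D.fiveQ u hf, D.fiveR u hf, D.indep u hf, ?_⟩
  intro γ a b c d hl
  obtain ⟨h1, h2⟩ := hl u hf
  exact ⟨pt_eq_of_ptEq h1, pt_eq_of_ptEq h2⟩

/-! ### The hypotheses -/

/-- A `KleinData` whose forms are the explicit ones, with two generators. -/
structure Gens (D : KleinData) where
  /-- the sign of `T` -/
  s : Qb
  hs : s ^ 2 = 1
  hζ : IsPrimitiveRoot D.ζ 5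
  H_eq : ∀ v : V2, D.H v = Hf v.1 v.2
  T_eq : ∀ v : V2, D.T v = s * Tf v.1 v.2
  f_eq : ∀ v : V2, D.f v = ff v.1 v.2
  sS : V2 →ₗ[Qb] V2
  sT : V2 →ₗ[Qb] V2
  f_sS : ∀ v : V2, D.f (sS v) = D.f v
  f_sT : ∀ v : V2, D.f (sT v) = D.f v
  /-- `Q(S v) = -R(v)`, `R(S v) = Q(v)` -/
  lawS : (ofKleinData D).LawAt sS 0 1 (-1) 0
  /-- `Q(T v) = Q(v) - R(v)`, `R(T v) = R(v)` -/
  lawT : (ofKleinData D).LawAt sT 1 0 (-1) 1
  /-- all words lie in `Γ` -/
  words : ∀ w : List Bool, ∃ γ ∈ D.Γ, ∀ v : V2,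
    γ v = w.foldl (fun u b => if b then sS u else sT u) v

namespace Gens

variable {D : KleinData}

theorem s_ne (G : Gens D) : G.s ≠ 0 := by
  intro h
  have := G.hs
  rw [h] at this
  norm_num at this

theorem H_sS (G : Gens D) (v : V2) : D.H (G.sS v) = D.H v := by
  obtain ⟨γ, hγ, h⟩ := G.words [true]
  have h1 := D.inv_H γ hγ v
  rw [h v] at h1
  simpa using h1

theorem T_sS (G : Gens D) (v : V2) : D.T (G.sS v) = D.T v := by
  obtain ⟨γ, hγ, h⟩ := G.words [true]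
  have h1 := D.inv_T γ hγ v
  rw [h v] at h1
  simpa using h1

theorem H_sT (G : Gens D) (v : V2) : D.H (G.sT v) = D.H v := by
  obtain ⟨γ, hγ, h⟩ := G.words [false]
  have h1 := D.inv_H γ hγ v
  rw [h v] at h1
  simpa using h1

theorem T_sT (G : Gens D) (v : V2) : D.T (G.sT v) = D.T v := by
  obtain ⟨γ, hγ, h⟩ := G.words [false]
  have h1 := D.inv_T γ hγ v
  rw [h v] at h1
  simpa using h1

theorem preserves_sS (G : Gens D) : Preserves (fun v : V2 => G.sS v) := by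
  intro v
  refine ⟨?_, ?_, ?_⟩
  · rw [← G.f_eq, ← G.f_eq]; exact G.f_sS v
  · rw [← G.H_eq, ← G.H_eq]; exact G.H_sS v
  · have h1 := G.T_sS v
    rw [G.T_eq, G.T_eq] at h1
    exact mul_left_cancel₀ G.s_ne h1

theorem preserves_sT (G : Gens D) : Preserves (fun v : V2 => G.sT v) := by
  intro v
  refine ⟨?_, ?_, ?_⟩
  · rw [← G.f_eq, ← G.f_eq]; exact G.f_sT v
  · rw [← G.H_eq, ← G.H_eq]; exact G.H_sT v
  · have h1 := G.T_sT v
    rw [G.T_eq, G.T_eq] at h1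
    exact mul_left_cancel₀ G.s_ne h1

/-- Scalars act on the forms through their degrees. -/
theorem forms_smul (G : Gens D) (c : Qb) (v : V2) :
    D.f (c • v) = c ^ 12 * D.f v ∧ D.H (c • v) = c ^ 20 * D.H v ∧ D.T (c • v) = c ^ 30 * D.T v := by
  refine ⟨?_, ?_, ?_⟩
  · rw [G.f_eq, G.f_eq]; exact ff_smul c v.1 v.2
  · rw [G.H_eq, G.H_eq]; exact Hf_smul c v.1 v.2
  · rw [G.T_eq, G.T_eq]
    have : Tf (c • v).1 (c • v).2 = c ^ 30 * Tf v.1 v.2 := Tf_smul c v.1 v.2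
    rw [this]; ring

/-- Membership of the explicit fibre in terms of the data. -/
theorem mem_fibre_iff (G : Gens D) (v u : V2) :
    u ∈ fibre (D.f v) (D.H v) (G.s * D.T v) ↔ D.f u = D.f v ∧ D.H u = D.H v ∧ D.T u = D.T v := by
  rw [mem_fibre, ← G.f_eq, ← G.H_eq]
  have hss : G.s * G.s = 1 := by rw [← sq]; exact G.hs
  constructor
  · rintro ⟨h1, h2, h3⟩
    refine ⟨h1, h2, ?_⟩
    rw [G.T_eq u, h3, ← mul_assoc, hss, one_mul]
  · rintro ⟨h1, h2, h3⟩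
    refine ⟨h1, h2, ?_⟩
    rw [← h3, G.T_eq u, ← mul_assoc, hss, one_mul]

theorem sum_ne_zero {v : V2} (hf : D.f v ≠ 0) : D.H v ^ 3 + D.T v ^ 2 ≠ 0 := by
  have h1 := D.rel v
  have h2 : D.H v ^ 3 + D.T v ^ 2 = 1728 * D.f v ^ 5 := by linear_combination h1
  rw [h2]
  exact mul_ne_zero (by norm_num) (pow_ne_zero 5 hf)

/-- The attached basis `(R, -Q)` on the fixed curve `kleinCurve h t`. -/
noncomputable def basis (D : KleinData) (h t : Qb) (u : V2) :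
    Tor5 (kleinCurve h t) × Tor5 (kleinCurve h t) :=
  basisC (kleinCurve h t) (D.xQ u) (D.yQ u) (D.xR u) (D.yR u)

theorem basis_sS (G : Gens D) {h t : Qb} {u : V2} (hH : D.H u = h) (hT : D.T u = t) (hf : D.f u ≠ 0) :
    basis D h t (G.sS u) = (-(basis D h t u).2, (basis D h t u).1) := by
  obtain ⟨q5, r5, -, hl⟩ := fib_facts D hH hT hf
  obtain ⟨q5', r5', -, -⟩ := fib_facts D ((G.H_sS u).trans hH) ((G.T_sS u).trans hT)
    (by rw [G.f_sS]; exact hf)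
  obtain ⟨l1, l2⟩ := hl (fun v => G.sS v) 0 1 (-1) 0 G.lawS
  unfold basis
  rw [basisC_of r5 q5, basisC_of r5' q5']
  refine Prod.ext (Subtype.ext ?_) (Subtype.ext ?_)
  · simp only [AddSubgroup.coe_neg, neg_neg]
    rw [l2]; simp
  · simp only
    rw [l1]; simp

theorem basis_sT (G : Gens D) {h t : Qb} {u : V2} (hH : D.H u = h) (hT : D.T u = t) (hf : D.f u ≠ 0) :
    basis D h t (G.sT u) = ((basis D h t u).1, (basis D h t u).1 + (basis D h t u).2) := by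
  obtain ⟨q5, r5, -, hl⟩ := fib_facts D hH hT hf
  obtain ⟨q5', r5', -, -⟩ := fib_facts D ((G.H_sT u).trans hH) ((G.T_sT u).trans hT)
    (by rw [G.f_sT]; exact hf)
  obtain ⟨l1, l2⟩ := hl (fun v => G.sT v) 1 0 (-1) 1 G.lawT
  unfold basis
  rw [basisC_of r5 q5, basisC_of r5' q5']
  refine Prod.ext (Subtype.ext ?_) (Subtype.ext ?_)
  · simp only
    rw [l2]; simp
  · simp only [AddSubgroup.coe_add]
    rw [l1]; simp only [one_smul, neg_smul]; abel

theorem basis_indep {h t : Qb} {u : V2} (hH : D.H u = h) (hT : D.T u = t) (hf : D.f u ≠ 0)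
    (a b : ZMod 5) (hab : a • (basis D h t u).1 + b • (basis D h t u).2 = 0) : a = 0 ∧ b = 0 := by
  obtain ⟨q5, r5, hind, -⟩ := fib_facts D hH hT hf
  unfold basis at hab
  rw [basisC_of r5 q5, zmod_smul_eq a, zmod_smul_eq b] at hab
  have h1 := congrArg (Subtype.val) hab
  simp only [AddSubgroup.coe_add, AddSubgroup.coe_zsmul, AddSubgroup.coe_zero] at h1
  have h2 : (-((b.val : ℕ) : ℤ)) • pt (kleinCurve h t) (D.xQ u) (D.yQ u)
      + ((a.val : ℕ) : ℤ) • pt (kleinCurve h t) (D.xR u) (D.yR u) = 0 := by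
    rw [neg_smul, ← smul_neg, add_comm]
    exact h1
  obtain ⟨hb, ha⟩ := hind _ _ h2
  exact ⟨zmod_eq_zero_of_dvd ha, zmod_eq_zero_of_dvd ((dvd_neg).mp hb)⟩

/-- Common set-up: the hypotheses of `fibre_eq_orbit` for the fibre through `v`. -/
theorem fibre_setup (G : Gens D) {v : V2} (hf : D.f v ≠ 0) (hT : D.T v ≠ 0) :
    G.s * D.T v ≠ 0 ∧ D.H v ^ 3 + (G.s * D.T v) ^ 2 ≠ 0 ∧ v ∈ fibre (D.f v) (D.H v) (G.s * D.T v) ∧
    (∀ u ∈ fibre (D.f v) (D.H v) (G.s * D.T v),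
      basis D (D.H v) (D.T v) (G.sS u)
        = (-(basis D (D.H v) (D.T v) u).2, (basis D (D.H v) (D.T v) u).1)) ∧
    (∀ u ∈ fibre (D.f v) (D.H v) (G.s * D.T v),
      basis D (D.H v) (D.T v) (G.sT u)
        = ((basis D (D.H v) (D.T v) u).1,
          (basis D (D.H v) (D.T v) u).1 + (basis D (D.H v) (D.T v) u).2)) ∧
    (∀ a b : ZMod 5, a • (basis D (D.H v) (D.T v) v).1 + b • (basis D (D.H v) (D.T v) v).2 = 0 →
      a = 0 ∧ b = 0) := by
  refine ⟨mul_ne_zero G.s_ne hT, ?_, (G.mem_fibre_iff v v).mpr ⟨rfl, rfl, rfl⟩, ?_, ?_, ?_⟩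
  · rw [mul_pow, G.hs, one_mul]
    exact sum_ne_zero hf
  · intro u hu
    obtain ⟨e1, e2, e3⟩ := (G.mem_fibre_iff v u).mp hu
    exact G.basis_sS e2 e3 (by rw [e1]; exact hf)
  · intro u hu
    obtain ⟨e1, e2, e3⟩ := (G.mem_fibre_iff v u).mp hu
    exact G.basis_sT e2 e3 (by rw [e1]; exact hf)
  · exact basis_indep rfl rfl hf

/-- The fibre of `(f, H, T)` is one orbit of the words. -/
theorem exists_word (G : Gens D) {v v' : V2} (hf : D.f v ≠ 0) (hH : D.H v ≠ 0) (hT : D.T v ≠ 0)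
    (e1 : D.f v' = D.f v) (e2 : D.H v' = D.H v) (e3 : D.T v' = D.T v) :
    ∃ γ ∈ D.Γ, v' = γ v := by
  obtain ⟨ht0, hΔ, hv, hBS, hBT, hind⟩ := G.fibre_setup hf hT
  obtain ⟨w, hw⟩ := fibre_eq_orbit hf hH ht0 hΔ G.preserves_sS G.preserves_sT
    (basis D (D.H v) (D.T v)) hBS hBT hv hind v' ((G.mem_fibre_iff v v').mpr ⟨e1, e2, e3⟩)
  obtain ⟨γ, hγ, h⟩ := G.words w
  exact ⟨γ, hγ, by rw [h v]; exact hw⟩

/-- Inside the fibre of `(f, H, T)` the coordinates of `Q`, `R` determine the point. -/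
theorem eq_of_coords_eq (G : Gens D) {v v' : V2} (hf : D.f v ≠ 0) (hH : D.H v ≠ 0) (hT : D.T v ≠ 0)
    (e1 : D.f v' = D.f v) (e2 : D.H v' = D.H v) (e3 : D.T v' = D.T v)
    (x1 : D.xQ v' = D.xQ v) (y1 : D.yQ v' = D.yQ v) (x2 : D.xR v' = D.xR v)
    (y2 : D.yR v' = D.yR v) : v' = v := by
  obtain ⟨ht0, hΔ, hv, hBS, hBT, hind⟩ := G.fibre_setup hf hT
  refine fibre_eq_of_basis_eq hf hH ht0 hΔ G.preserves_sS G.preserves_sT
    (basis D (D.H v) (D.T v)) hBS hBT hv hind ((G.mem_fibre_iff v v').mpr ⟨e1, e2, e3⟩) ?_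
  unfold basis
  rw [x1, y1, x2, y2]

/-- Normalisation of a point of the `(H, T)`-fibre into the `(f, H, T)`-fibre by a fifth root of
unity. -/
theorem normalise (G : Gens D) {v v' : V2} (hf : D.f v ≠ 0) (e2 : D.H v' = D.H v) (e3 : D.T v' = D.T v) :
    ∃ i : ℕ, D.f (D.ζ ^ (2 * i) • v') = D.f v ∧ D.H (D.ζ ^ (2 * i) • v') = D.H v ∧
      D.T (D.ζ ^ (2 * i) • v') = D.T v ∧ v' = D.ζ ^ (3 * i) • (D.ζ ^ (2 * i) • v') := by
  have hζ5 : D.ζ ^ 5 = 1 := G.hζ.pow_eq_one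
  have h5 : (D.f v' / D.f v) ^ 5 = 1 := by
    have h1 := D.rel v
    have h2 := D.rel v'
    rw [e2, e3] at h2
    have h3 : D.f v' ^ 5 = D.f v ^ 5 := by
      have : (1728 : Qb) * D.f v' ^ 5 = 1728 * D.f v ^ 5 := by rw [← h1, ← h2]
      exact mul_left_cancel₀ (by norm_num) this
    rw [div_pow, h3, div_self (pow_ne_zero 5 hf)]
  obtain ⟨i, -, hi⟩ := G.hζ.eq_pow_of_pow_eq_one h5
  have hfi : D.f v' = D.ζ ^ i * D.f v := by
    rw [hi]; field_simp
  obtain ⟨s1, s2, s3⟩ := G.forms_smul (D.ζ ^ (2 * i)) v'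
  have hp : ∀ n : ℕ, (D.ζ ^ (2 * i)) ^ n = D.ζ ^ (2 * i * n) :=
    fun n => (pow_mul D.ζ (2 * i) n).symm
  have q1 : D.ζ ^ (2 * i * 12) * D.ζ ^ i = 1 := by
    rw [← pow_add, show 2 * i * 12 + i = 5 * (5 * i) by ring, pow_mul, hζ5, one_pow]
  have q2 : D.ζ ^ (2 * i * 20) = 1 := by
    rw [show 2 * i * 20 = 5 * (8 * i) by ring, pow_mul, hζ5, one_pow]
  have q3 : D.ζ ^ (2 * i * 30) = 1 := by
    rw [show 2 * i * 30 = 5 * (12 * i) by ring, pow_mul, hζ5, one_pow]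
  refine ⟨i, ?_, ?_, ?_, ?_⟩
  · rw [s1, hp, hfi, ← mul_assoc, q1, one_mul]
  · rw [s2, hp, q2, one_mul, e2]
  · rw [s3, hp, q3, one_mul, e3]
  · rw [smul_smul, ← pow_add, show 3 * i + 2 * i = 5 * i by ring, pow_mul, hζ5, one_pow,
      one_smul]

/-- **K2 for the interface**: the structure `KleinData.Fibres`. -/
theorem fibres (G : Gens D) : D.Fibres where
  exists_v := by
    intro h t hht
    have hht' : h ^ 3 + (G.s * t) ^ 2 ≠ 0 := by rw [mul_pow, G.hs, one_mul]; exact hht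
    obtain ⟨z1, z2, e1, e2⟩ := exists_preimage h (G.s * t) hht'
    refine ⟨(z1, z2), by rw [G.H_eq]; exact e1, ?_⟩
    rw [G.T_eq]
    show G.s * Tf z1 z2 = t
    rw [e2, ← mul_assoc, ← sq, G.hs, one_mul]
  trans := by
    intro v v' hf hH hT e2 e3
    obtain ⟨i, f1, f2, f3, hv'⟩ := G.normalise hf e2 e3
    obtain ⟨γ, hγ, h⟩ := G.exists_word hf hH hT f1 f2 f3
    exact ⟨3 * i, γ, hγ, by rw [← h]; exact hv'⟩

/-- **The field `inj` of `KleinData.Ext`.** -/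
theorem inj (G : Gens D) (v v' : V2) (hf : D.f v ≠ 0) (hH : D.H v ≠ 0) (hT : D.T v ≠ 0)
    (e2 : D.H v' = D.H v) (e3 : D.T v' = D.T v)
    (x1 : D.xQ v' = D.xQ v) (y1 : D.yQ v' = D.yQ v) (x2 : D.xR v' = D.xR v)
    (y2 : D.yR v' = D.yR v) : ∃ k : ℕ, v' = D.ζ ^ k • v := by
  obtain ⟨i, f1, f2, f3, hv'⟩ := G.normalise hf e2 e3
  have hw : D.ζ ^ (2 * i) • v' = v :=
    G.eq_of_coords_eq hf hH hT f1 f2 f3
      ((scal_pow D.scal_xQ _ _).trans x1) ((scal_pow D.scal_yQ _ _).trans y1)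
      ((scal_pow D.scal_xR _ _).trans x2) ((scal_pow D.scal_yR _ _).trans y2)
  exact ⟨3 * i, by rw [← hw]; exact hv'⟩

end Gens

end Fermat.Agent.S52K2.FibresOfData
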