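/-
Programme K (S52), K2 final glue (helper11): the hypotheses `FibresOfData.Gens` for the explicit
data `S52Top.Inst56` (helper13) / `S52K.Klein56` (helper56), for an ARBITRARY completion
`R : (pre p).Rest` of the data.  Consequences: `KleinData.Fibres` and the field `inj` of
`KleinData.Ext` for `D = PreKlein.toKleinData R`.
-/
import Mathlib
import Fermat.Agent.S52Top.Inst56
import Fermat.Agent.S52K2.FibresOfData
import Fermat.Agent.S52K2.Bridge56

set_option autoImplicit false

open WeierstrassCurve WeierstrassCurve.Affine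

namespace Fermat.Agent.S52K2.Gens56

open Fermat.Agent.S52K3 Fermat.Agent.S52Top.LawComp Fermat.Agent.S52Top.LawComp.PreKlein
open Fermat.Agent.S52Top.Inst56 Fermat.Agent.S52K.Klein56
open Fermat.Agent.S52K2.Forms Fermat.Agent.S52K2.FibresOfData Fermat.Agent.S52K2.Bridge56

/-- The generator package for the explicit Klein data. -/
noncomputable def gens56 (p : Par) (R : (pre p).Rest) (hζ : IsPrimitiveRoot R.ζ 5) :
    Gens (toKleinData R) where
  s := -1
  hs := by norm_num
  hζ := hζ
  H_eq v := kH_eq_Hf v.1 v.2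
  T_eq v := by
    show -kT v.1 v.2 = -1 * Tf v.1 v.2
    rw [kT_eq_Tf]; ring
  f_eq v := kf_eq_ff v.1 v.2
  sS := Slin p
  sT := T5lin p
  f_sS := S_f p
  f_sT := T5_f p
  lawS := lawAt_S p
  lawT := lawAt_T5 p
  words := word_mem_gam p

/-- **K2 for the explicit data.** -/
theorem fibres56 (p : Par) (R : (pre p).Rest) (hζ : IsPrimitiveRoot R.ζ 5) :
    (toKleinData R).Fibres :=
  (gens56 p R hζ).fibres

/-- **The field `inj` of `KleinData.Ext` for the explicit data.** -/
theorem inj56 (p : Par) (R : (pre p).Rest) (hζ : IsPrimitiveRoot R.ζ 5) (v v' : V2)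
    (hf : (toKleinData R).f v ≠ 0) (hH : (toKleinData R).H v ≠ 0) (hT : (toKleinData R).T v ≠ 0)
    (e2 : (toKleinData R).H v' = (toKleinData R).H v)
    (e3 : (toKleinData R).T v' = (toKleinData R).T v)
    (x1 : (toKleinData R).xQ v' = (toKleinData R).xQ v)
    (y1 : (toKleinData R).yQ v' = (toKleinData R).yQ v)
    (x2 : (toKleinData R).xR v' = (toKleinData R).xR v)
    (y2 : (toKleinData R).yR v' = (toKleinData R).yR v) :
    ∃ k : ℕ, v' = (toKleinData R).ζ ^ k • v :=
  (gens56 p R hζ).inj v v' hf hH hT e2 e3 x1 y1 x2 y2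

/-- `KleinData.Ext` from its first two fields. -/
theorem ext56 (p : Par) (R : (pre p).Rest) (hζ : IsPrimitiveRoot R.ζ 5)
    (hdet : ∀ γ ∈ (toKleinData R).Γ, ∃ a b c d : ℤ, (5 : ℤ) ∣ a * d - b * c - 1 ∧
      ∀ (v : V2) (hv : (toKleinData R).f v ≠ 0),
      PtEq (kleinCurve ((toKleinData R).H v) ((toKleinData R).T v))
          ((toKleinData R).xQ (γ v)) ((toKleinData R).yQ (γ v))
        (a • (Point.some ((toKleinData R).xQ v) ((toKleinData R).yQ v)
            ((toKleinData R).nonsingQ v hv)) +
          c • (Point.some ((toKleinData R).xR v) ((toKleinData R).yR v)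
            ((toKleinData R).nonsingR v hv))) ∧
      PtEq (kleinCurve ((toKleinData R).H v) ((toKleinData R).T v))
          ((toKleinData R).xR (γ v)) ((toKleinData R).yR (γ v))
        (b • (Point.some ((toKleinData R).xQ v) ((toKleinData R).yQ v)
            ((toKleinData R).nonsingQ v hv)) +
          d • (Point.some ((toKleinData R).xR v) ((toKleinData R).yR v)
            ((toKleinData R).nonsingR v hv))))
    (hgal : ∀ σ : GQ, σ (toKleinData R).ζ = (toKleinData R).ζ → ∀ v : V2,
      σ ((toKleinData R).xR v) = (toKleinData R).xR (gal σ v) ∧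
        σ ((toKleinData R).yR v) = (toKleinData R).yR (gal σ v)) :
    (toKleinData R).Ext :=
  ⟨hdet, hgal, inj56 p R hζ⟩

end Fermat.Agent.S52K2.Gens56
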