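/-
Programme K (S52), brick K2a (helper11): over an algebraically closed field of characteristic
zero, every pair `(h₀, t₀)` with `h₀³ + t₀² ≠ 0` is of the form `(H v, T v)`.
-/
import Mathlib
import Fermat.Agent.S52K2.Forms

set_option autoImplicit false

namespace Fermat.Agent.S52K2.Exists

open Polynomial Fermat.Agent.S52K2.Forms

variable {k : Type*} [Field k]

/-- dehomogenised Klein form `H(z,1)` as a polynomial. -/
noncomputable def Hp : k[X] := -(X ^ 20 + 1) + C 228 * (X ^ 15 - X ^ 5) - C 494 * X ^ 10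

/-- dehomogenised Klein form `T(z,1)` as a polynomial. -/
noncomputable def Tp : k[X] :=
  (X ^ 30 + 1) + C 522 * (X ^ 25 - X ^ 5) - C 10005 * (X ^ 20 + X ^ 10)

theorem eval_Hp (z : k) : Hp.eval z = Hf z 1 := by
  simp only [Hp, Hf, eval_add, eval_sub, eval_neg, eval_mul, eval_pow, eval_X, eval_C, eval_one]
  ring

theorem eval_Tp (z : k) : Tp.eval z = Tf z 1 := by
  simp only [Tp, Tf, eval_add, eval_sub, eval_mul, eval_pow, eval_X, eval_C, eval_one]
  ring

/-- The degree-60 polynomial whose roots are the `z` with `H(z,1)³ t₀² = T(z,1)² h₀³`. -/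
noncomputable def Phi (h0 t0 : k) : k[X] := C (t0 ^ 2) * Hp ^ 3 - C (h0 ^ 3) * Tp ^ 2

theorem natDegree_Phi (h0 t0 : k) (h : h0 ^ 3 + t0 ^ 2 ≠ 0) : (Phi h0 t0).natDegree = 60 := by
  unfold Phi Hp Tp
  compute_degree!
  have h1 : (coeff (1 : k[X]) 20) = 0 := by
    rw [coeff_one]; norm_num
  rw [h1]
  intro h'
  apply h
  have : ((Int.negSucc 0 : ℤ) : k) = -1 := by norm_num
  rw [this] at h'
  linear_combination -h'

theorem Phi_ne_zero (h0 t0 : k) (h : h0 ^ 3 + t0 ^ 2 ≠ 0) : Phi h0 t0 ≠ 0 := by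
  intro h'
  have := natDegree_Phi h0 t0 h
  rw [h', natDegree_zero] at this
  norm_num at this

theorem eval_Phi (h0 t0 z : k) :
    (Phi h0 t0).eval z = t0 ^ 2 * Hf z 1 ^ 3 - h0 ^ 3 * Tf z 1 ^ 2 := by
  simp only [Phi, eval_sub, eval_mul, eval_pow, eval_C, eval_Hp, eval_Tp]

/-- **K2a.** Existence of a point of the cone over a given `(h₀, t₀)` with nonzero discriminant. -/
theorem exists_preimage [IsAlgClosed k] [CharZero k] (h0 t0 : k) (h : h0 ^ 3 + t0 ^ 2 ≠ 0) :
    ∃ z1 z2 : k, Hf z1 z2 = h0 ∧ Tf z1 z2 = t0 := by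
  -- a root of `Phi`
  have hdeg : (Phi h0 t0).degree ≠ 0 := by
    rw [degree_eq_natDegree (Phi_ne_zero h0 t0 h), natDegree_Phi h0 t0 h]
    norm_num
  obtain ⟨z, hz⟩ := IsAlgClosed.exists_root (Phi h0 t0) hdeg
  rw [IsRoot.def, eval_Phi] at hz
  -- `H(z,1)` and `T(z,1)` do not both vanish
  have hnot : ¬ (Hf z 1 = 0 ∧ Tf z 1 = 0) := by
    rintro ⟨h1, h2⟩
    exact one_ne_zero (eq_zero_of_Hf_Tf_eq_zero h1 h2).2
  -- scaling
  have hscale : ∀ c : k, Hf (c * z) (c * 1) = c ^ 20 * Hf z 1 ∧ Tf (c * z) (c * 1) = c ^ 30 * Tf z 1 :=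
    fun c => ⟨Hf_smul c z 1, Tf_smul c z 1⟩
  by_cases hH : Hf z 1 = 0
  · -- then `h₀ = 0`
    have hT : Tf z 1 ≠ 0 := fun hT => hnot ⟨hH, hT⟩
    have h0z : h0 = 0 := by
      rw [hH] at hz
      have : h0 ^ 3 * Tf z 1 ^ 2 = 0 := by linear_combination -hz
      rcases mul_eq_zero.mp this with h' | h'
      · exact pow_eq_zero_iff (by norm_num) |>.mp h'
      · exact absurd (pow_eq_zero_iff (by norm_num) |>.mp h') hT
    obtain ⟨c, hc⟩ := IsAlgClosed.exists_pow_nat_eq (t0 / Tf z 1) (n := 30) (by norm_num)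
    refine ⟨c * z, c * 1, ?_, ?_⟩
    · rw [(hscale c).1, hH, mul_zero, h0z]
    · rw [(hscale c).2, hc]; field_simp
  · by_cases hT : Tf z 1 = 0
    · have t0z : t0 = 0 := by
        rw [hT] at hz
        have : t0 ^ 2 * Hf z 1 ^ 3 = 0 := by linear_combination hz
        rcases mul_eq_zero.mp this with h' | h'
        · exact pow_eq_zero_iff (by norm_num) |>.mp h'
        · exact absurd (pow_eq_zero_iff (by norm_num) |>.mp h') hH
      obtain ⟨c, hc⟩ := IsAlgClosed.exists_pow_nat_eq (h0 / Hf z 1) (n := 20) (by norm_num)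
      refine ⟨c * z, c * 1, ?_, ?_⟩
      · rw [(hscale c).1, hc]; field_simp
      · rw [(hscale c).2, hT, mul_zero, t0z]
    · -- generic case
      set a := h0 / Hf z 1 with ha
      set b := t0 / Tf z 1 with hb
      have hab : a ^ 3 = b ^ 2 := by
        rw [ha, hb]; field_simp; linear_combination -hz
      by_cases ha0 : a = 0
      · -- then `h₀ = 0`, `b = 0`, `t₀ = 0`: impossible
        exfalso
        have hb0 : b = 0 := by
          have : b ^ 2 = 0 := by rw [← hab, ha0]; ring
          exact pow_eq_zero_iff (by norm_num) |>.mp this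
        have h0z : h0 = 0 := by
          have := ha0; rw [ha, div_eq_zero_iff] at this
          exact this.resolve_right hH
        have t0z : t0 = 0 := by
          have := hb0; rw [hb, div_eq_zero_iff] at this
          exact this.resolve_right hT
        apply h; rw [h0z, t0z]; ring
      · obtain ⟨c, hc⟩ := IsAlgClosed.exists_pow_nat_eq (b / a) (n := 10) (by norm_num)
        have h20 : c ^ 20 = a := by
          have : c ^ 20 = (c ^ 10) ^ 2 := by ring
          rw [this, hc]; field_simp; linear_combination -hab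
        have h30 : c ^ 30 = b := by
          have : c ^ 30 = (c ^ 10) ^ 3 := by ring
          rw [this, hc]; field_simp; linear_combination -b * hab
        refine ⟨c * z, c * 1, ?_, ?_⟩
        · rw [(hscale c).1, h20, ha]; field_simp
        · rw [(hscale c).2, h30, hb]; field_simp

end Fermat.Agent.S52K2.Exists
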