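/-
Programme K (S52), brick K2b part 1 (helper11): the fibre of `(f, H, T)` over a point with
`f₀ h₀ t₀ ≠ 0` has at most `120` elements (root count of the degree-60 equation, then a square root).
-/
import Mathlib
import Fermat.Agent.S52K2.Exists

set_option autoImplicit false

namespace Fermat.Agent.S52K2.FibreCard

open Polynomial Fermat.Agent.S52K2.Forms Fermat.Agent.S52K2.Exists

variable {k : Type*} [Field k]

/-- The fibre of `(f, H, T)`. -/
def fibre (f0 h0 t0 : k) : Set (k × k) :=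
  {v | ff v.1 v.2 = f0 ∧ Hf v.1 v.2 = h0 ∧ Tf v.1 v.2 = t0}

theorem mem_fibre {f0 h0 t0 : k} {v : k × k} :
    v ∈ fibre f0 h0 t0 ↔ ff v.1 v.2 = f0 ∧ Hf v.1 v.2 = h0 ∧ Tf v.1 v.2 = t0 := Iff.rfl

theorem ff_zero_right (z : k) : ff z 0 = 0 := by unfold ff; ring

/-- For `v` in the fibre the second coordinate is nonzero and `z = z₁/z₂` is a root of `Phi`,
while `z₂²` is determined by `z`. -/
theorem fibre_data {f0 h0 t0 : k} (hf0 : f0 ≠ 0) {v : k × k}
    (hv : v ∈ fibre f0 h0 t0) :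
    v.2 ≠ 0 ∧ (Phi h0 t0).IsRoot (v.1 / v.2) ∧
      v.2 ^ 2 * (ff (v.1 / v.2) 1 * Tf (v.1 / v.2) 1 * h0 ^ 2)
        = f0 * t0 * Hf (v.1 / v.2) 1 ^ 2 := by
  obtain ⟨z1, z2⟩ := v
  obtain ⟨h1, h2, h3⟩ := hv
  simp only at h1 h2 h3 ⊢
  have hz2 : z2 ≠ 0 := by
    rintro rfl
    rw [ff_zero_right] at h1
    exact hf0 h1.symm
  have e1 : ff z1 z2 = z2 ^ 12 * ff (z1 / z2) 1 := by
    have := ff_smul z2 (z1 / z2) 1
    rwa [mul_div_cancel₀ _ hz2, mul_one] at this
  have e2 : Hf z1 z2 = z2 ^ 20 * Hf (z1 / z2) 1 := by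
    have := Hf_smul z2 (z1 / z2) 1
    rwa [mul_div_cancel₀ _ hz2, mul_one] at this
  have e3 : Tf z1 z2 = z2 ^ 30 * Tf (z1 / z2) 1 := by
    have := Tf_smul z2 (z1 / z2) 1
    rwa [mul_div_cancel₀ _ hz2, mul_one] at this
  rw [e1] at h1
  rw [e2] at h2
  rw [e3] at h3
  refine ⟨hz2, ?_, ?_⟩
  · rw [IsRoot.def, eval_Phi, ← h2, ← h3]; ring
  · rw [← h1, ← h2, ← h3]; ring

/-- The set of square roots of an element has at most two elements. -/
theorem sqrt_finset (c : k) : ∃ s : Finset k, s.card ≤ 2 ∧ ∀ w : k, w ^ 2 = c → w ∈ s := by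
  classical
  by_cases h : ∃ w : k, w ^ 2 = c
  · obtain ⟨w0, hw0⟩ := h
    refine ⟨{w0, -w0}, Finset.card_le_two, fun w hw => ?_⟩
    have : (w - w0) * (w + w0) = 0 := by ring_nf; rw [hw, hw0]; ring
    rcases mul_eq_zero.mp this with h' | h'
    · simp [sub_eq_zero.mp h']
    · simp [eq_neg_of_add_eq_zero_left h']
  · exact ⟨∅, by simp, fun w hw => absurd ⟨w, hw⟩ h⟩

/-- **Fibre bound.** -/
theorem fibre_finite_card_le {f0 h0 t0 : k} (hf0 : f0 ≠ 0) (hh0 : h0 ≠ 0) (ht0 : t0 ≠ 0)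
    (hΔ : h0 ^ 3 + t0 ^ 2 ≠ 0) :
    (fibre f0 h0 t0).Finite ∧ (fibre f0 h0 t0).ncard ≤ 120 := by
  classical
  -- the finite set of candidates
  let c : k → k := fun z => f0 * t0 * Hf z 1 ^ 2 / (ff z 1 * Tf z 1 * h0 ^ 2)
  choose sq hsq_card hsq_mem using fun z => sqrt_finset (c z)
  let cand : Finset (k × k) :=
    (Phi h0 t0).roots.toFinset.biUnion fun z => (sq z).image fun w => (z * w, w)
  have hsub : fibre f0 h0 t0 ⊆ (cand : Set (k × k)) := by
    intro v hv
    obtain ⟨hz2, hroot, hsqr⟩ := fibre_data hf0 hv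
    have hv' := hv
    obtain ⟨h1, h2, h3⟩ := hv'
    simp only [cand, Finset.coe_biUnion, Finset.mem_coe, Multiset.mem_toFinset, Finset.coe_image,
      Set.mem_iUnion, Set.mem_image, exists_prop]
    refine ⟨v.1 / v.2, (mem_roots (Phi_ne_zero h0 t0 hΔ)).mpr hroot, v.2, ?_, ?_⟩
    · apply hsq_mem
      -- the denominator is nonzero
      have e1 : ff v.1 v.2 = v.2 ^ 12 * ff (v.1 / v.2) 1 := by
        have := ff_smul v.2 (v.1 / v.2) 1
        rwa [mul_div_cancel₀ _ hz2, mul_one] at this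
      have e3 : Tf v.1 v.2 = v.2 ^ 30 * Tf (v.1 / v.2) 1 := by
        have := Tf_smul v.2 (v.1 / v.2) 1
        rwa [mul_div_cancel₀ _ hz2, mul_one] at this
      have hfz : ff (v.1 / v.2) 1 ≠ 0 := by
        intro h0'
        rw [h0', mul_zero] at e1
        exact hf0 (h1 ▸ e1)
      have hTz : Tf (v.1 / v.2) 1 ≠ 0 := by
        intro h0'
        rw [h0', mul_zero] at e3
        exact ht0 (h3 ▸ e3)
      have hden : ff (v.1 / v.2) 1 * Tf (v.1 / v.2) 1 * h0 ^ 2 ≠ 0 :=
        mul_ne_zero (mul_ne_zero hfz hTz) (pow_ne_zero 2 hh0)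
      show v.2 ^ 2 = c (v.1 / v.2)
      simp only [c]
      rw [eq_div_iff hden]
      exact hsqr
    · ext
      · simp only; exact div_mul_cancel₀ _ hz2
      · rfl
  have hcard : cand.card ≤ 120 := by
    calc cand.card ≤ (Phi h0 t0).roots.toFinset.card * 2 := by
          apply Finset.card_biUnion_le_card_mul
          intro z _
          exact le_trans Finset.card_image_le (hsq_card z)
      _ ≤ 60 * 2 := by
          apply Nat.mul_le_mul_right
          calc (Phi h0 t0).roots.toFinset.card ≤ Multiset.card (Phi h0 t0).roots :=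
                Multiset.toFinset_card_le _
            _ ≤ (Phi h0 t0).natDegree := card_roots' _
            _ = 60 := natDegree_Phi h0 t0 hΔ
      _ = 120 := by norm_num
  have hfin : (fibre f0 h0 t0).Finite := cand.finite_toSet.subset hsub
  refine ⟨hfin, ?_⟩
  calc (fibre f0 h0 t0).ncard ≤ (cand : Set (k × k)).ncard :=
        Set.ncard_le_ncard hsub cand.finite_toSet
    _ = cand.card := Set.ncard_coe_finset cand
    _ ≤ 120 := hcard

end Fermat.Agent.S52K2.FibreCard
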