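/-
Programme K (S52), brick K2 bridge (helper11): the fibre theorem of `S52K2` specialised to an
abstract package `TorsBasis99.KleinPts k` (helper99's brick B1) whose forms are the explicit Klein
forms `ff, Hf, Tf` of `S52K2.Forms`.

Outputs (for `k` algebraically closed of characteristic zero):

* `exists_fibre_point` : every `(h, t)` with `h³ + t² ≠ 0` is `(P.H v, P.T v)` for some `v`;
* `exists_word` : if `f v ≠ 0`, `H v ≠ 0`, `T v ≠ 0` and `(f, H, T) v' = (f, H, T) v` then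
  `v' = applyWord P.gS P.gT w v` for a word `w` in the two generators;
* `exists_scalar_word` : if only `(H, T) v' = (H, T) v` then `v' = ζ ^ j • applyWord P.gS P.gT w v`
  for a primitive fifth root of unity `ζ`;
* `basis_applyWord` : the transformation of the basis `(R, -Q)` along a word is given by the
  matrix `evalWord stdS stdT w` (which has determinant one, `det_evalWord`).
-/
import Mathlib
import Fermat.Agent.S52K.TorsBasis99
import Fermat.Agent.S52K2.Orbit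

set_option autoImplicit false

open WeierstrassCurve WeierstrassCurve.Affine

namespace Fermat.Agent.S52K2.FibresOfPts

open Fermat.Agent.S52K.TorsBasis99 Fermat.Agent.S52K.TorsBasis99.KleinPts
open Fermat.Agent.S52K2.Forms Fermat.Agent.S52K2.Exists Fermat.Agent.S52K2.FibreCard
open Fermat.Agent.S52K2.Words Fermat.Agent.S52K2.Orbit

variable {k : Type*} [Field k]

/-- Compatibility of an abstract package with the explicit Klein forms, plus invariance of the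
vertex form `f` under the two generators. -/
structure Compat (P : KleinPts k) : Prop where
  H_eq : ∀ v, P.H v = Hf v.1 v.2
  T_eq : ∀ v, P.T v = Tf v.1 v.2
  f_eq : ∀ v, P.f v = ff v.1 v.2
  f_gS : ∀ v, P.f (P.gS v) = P.f v
  f_gT : ∀ v, P.f (P.gT v) = P.f v

section Tor

variable [DecidableEq k]

/-- The points killed by `5`. -/
def Tor5 (W : Affine k) : AddSubgroup W.Point := (nsmulAddMonoidHom (α := W.Point) 5).ker

theorem mem_Tor5 {W : Affine k} {p : W.Point} : p ∈ Tor5 W ↔ (5 : ℕ) • p = 0 := by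
  rw [Tor5, AddMonoidHom.mem_ker, nsmulAddMonoidHom_apply]

theorem Tor5_nsmul {W : Affine k} (x : Tor5 W) : (5 : ℕ) • x = 0 :=
  Subtype.ext (by simp [mem_Tor5.mp x.2])

/-- The `ZMod 5`-module structure on the `5`-torsion. -/
noncomputable instance instModuleTor5 (W : Affine k) : Module (ZMod 5) (Tor5 W) :=
  AddCommGroup.zmodModule Tor5_nsmul

end Tor

theorem zmod_smul_eq {A : Type*} [AddCommGroup A] [Module (ZMod 5) A] (a : ZMod 5) (x : A) :
    a • x = ((a.val : ℕ) : ℤ) • x := by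
  conv_lhs => rw [← ZMod.natCast_zmod_val a]
  rw [Nat.cast_smul_eq_nsmul, natCast_zsmul]

theorem zmod_eq_zero_of_dvd {a : ZMod 5} (h : (5 : ℤ) ∣ ((a.val : ℕ) : ℤ)) : a = 0 := by
  have h1 : (5 : ℕ) ∣ a.val := by exact_mod_cast h
  have h2 : a.val < 5 := ZMod.val_lt a
  have h3 : a.val = 0 := Nat.eq_zero_of_dvd_of_lt h1 h2
  exact (ZMod.val_eq_zero a).mp h3

section Main

variable [DecidableEq k] {P : KleinPts k} {h t : k}

/-- The basis `(R, -Q)` attached to a point of the plane (junk value `0` outside the fibre). -/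
noncomputable def basis (hΔ : (curve h t).Δ ≠ 0) (v : k × k) :
    Tor5 (curve h t).toAffine × Tor5 (curve h t).toAffine := by
  classical
  exact if hv : P.H v = h ∧ P.T v = t then
    (⟨ptR hΔ (⟨v, hv⟩ : P.Fib h t), mem_Tor5.mpr (five_nsmul_ptR hΔ _)⟩,
      ⟨-ptQ hΔ (⟨v, hv⟩ : P.Fib h t), mem_Tor5.mpr (by rw [smul_neg, five_nsmul_ptQ hΔ, neg_zero])⟩)
  else 0

theorem basis_of_mem (hΔ : (curve h t).Δ ≠ 0) {v : k × k} (hv : P.H v = h ∧ P.T v = t) :
    basis (P := P) hΔ v =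
      (⟨ptR hΔ (⟨v, hv⟩ : P.Fib h t), mem_Tor5.mpr (five_nsmul_ptR hΔ _)⟩,
      ⟨-ptQ hΔ (⟨v, hv⟩ : P.Fib h t),
        mem_Tor5.mpr (by rw [smul_neg, five_nsmul_ptQ hΔ, neg_zero])⟩) := by
  unfold basis
  rw [dif_pos hv]

theorem basis_gS (hΔ : (curve h t).Δ ≠ 0) {v : k × k} (hv : P.H v = h ∧ P.T v = t) :
    basis (P := P) hΔ (P.gS v) = (-(basis (P := P) hΔ v).2, (basis (P := P) hΔ v).1) := by
  have hv' : P.H (P.gS v) = h ∧ P.T (P.gS v) = t := by rw [P.H_gS, P.T_gS]; exact hv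
  rw [basis_of_mem hΔ hv, basis_of_mem hΔ hv']
  have e1 : ptR hΔ (⟨P.gS v, hv'⟩ : P.Fib h t) = ptQ hΔ (⟨v, hv⟩ : P.Fib h t) :=
    ptR_sS hΔ (⟨v, hv⟩ : P.Fib h t)
  have e2 : ptQ hΔ (⟨P.gS v, hv'⟩ : P.Fib h t) = -ptR hΔ (⟨v, hv⟩ : P.Fib h t) :=
    ptQ_sS hΔ (⟨v, hv⟩ : P.Fib h t)
  refine Prod.ext (Subtype.ext ?_) (Subtype.ext ?_)
  · simp only [AddSubgroup.coe_neg, neg_neg]
    exact e1
  · simp only
    rw [e2, neg_neg]

theorem basis_gT (hΔ : (curve h t).Δ ≠ 0) {v : k × k} (hv : P.H v = h ∧ P.T v = t) :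
    basis (P := P) hΔ (P.gT v)
      = ((basis (P := P) hΔ v).1, (basis (P := P) hΔ v).1 + (basis (P := P) hΔ v).2) := by
  have hv' : P.H (P.gT v) = h ∧ P.T (P.gT v) = t := by rw [P.H_gT, P.T_gT]; exact hv
  rw [basis_of_mem hΔ hv, basis_of_mem hΔ hv']
  have e1 : ptR hΔ (⟨P.gT v, hv'⟩ : P.Fib h t) = ptR hΔ (⟨v, hv⟩ : P.Fib h t) :=
    ptR_sT hΔ (⟨v, hv⟩ : P.Fib h t)
  have e2 : ptQ hΔ (⟨P.gT v, hv'⟩ : P.Fib h t)
      = ptQ hΔ (⟨v, hv⟩ : P.Fib h t) - ptR hΔ (⟨v, hv⟩ : P.Fib h t) :=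
    ptQ_sT hΔ (⟨v, hv⟩ : P.Fib h t)
  refine Prod.ext (Subtype.ext ?_) (Subtype.ext ?_)
  · exact e1
  · simp only [AddSubgroup.coe_add]
    rw [e2]
    abel

theorem basis_indep (hΔ : (curve h t).Δ ≠ 0) {v : k × k} (hv : P.H v = h ∧ P.T v = t)
    (a b : ZMod 5)
    (hab : a • (basis (P := P) hΔ v).1 + b • (basis (P := P) hΔ v).2 = 0) : a = 0 ∧ b = 0 := by
  rw [basis_of_mem hΔ hv, zmod_smul_eq a, zmod_smul_eq b] at hab
  have h1 := congrArg (Subtype.val) hab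
  simp only [AddSubgroup.coe_add, AddSubgroup.coe_zsmul, AddSubgroup.coe_zero] at h1
  have h2 : (-((b.val : ℕ) : ℤ)) • ptQ hΔ (⟨v, hv⟩ : P.Fib h t)
      + ((a.val : ℕ) : ℤ) • ptR hΔ (⟨v, hv⟩ : P.Fib h t) = 0 := by
    rw [neg_smul, ← smul_neg, add_comm]
    exact h1
  obtain ⟨hb, ha⟩ := independent hΔ (⟨v, hv⟩ : P.Fib h t) h2
  exact ⟨zmod_eq_zero_of_dvd ha, zmod_eq_zero_of_dvd ((dvd_neg).mp hb)⟩

end Main

section Orbit

variable {P : KleinPts k}

theorem preserves_gS (C : Compat P) : Preserves P.gS := by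
  intro v
  refine ⟨?_, ?_, ?_⟩
  · rw [← C.f_eq, ← C.f_eq, C.f_gS]
  · rw [← C.H_eq, ← C.H_eq, P.H_gS]
  · rw [← C.T_eq, ← C.T_eq, P.T_gS]

theorem preserves_gT (C : Compat P) : Preserves P.gT := by
  intro v
  refine ⟨?_, ?_, ?_⟩
  · rw [← C.f_eq, ← C.f_eq, C.f_gT]
  · rw [← C.H_eq, ← C.H_eq, P.H_gT]
  · rw [← C.T_eq, ← C.T_eq, P.T_gT]

/-- Scalars act on the forms through their degrees. -/
theorem forms_smul (C : Compat P) (c : k) (v : k × k) :
    P.f (c • v) = c ^ 12 * P.f v ∧ P.H (c • v) = c ^ 20 * P.H v ∧ P.T (c • v) = c ^ 30 * P.T v := by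
  refine ⟨?_, ?_, ?_⟩
  · rw [C.f_eq, C.f_eq]; exact ff_smul c v.1 v.2
  · rw [C.H_eq, C.H_eq]; exact Hf_smul c v.1 v.2
  · rw [C.T_eq, C.T_eq]; exact Tf_smul c v.1 v.2

variable [CharZero k]

theorem sum_ne_zero (P : KleinPts k) {v : k × k} (hf : P.f v ≠ 0) : P.H v ^ 3 + P.T v ^ 2 ≠ 0 := by
  have h1 := P.syz v
  have h2 : P.H v ^ 3 + P.T v ^ 2 = 1728 * P.f v ^ 5 := by linear_combination h1
  rw [h2]
  exact mul_ne_zero (by norm_num) (pow_ne_zero 5 hf)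

theorem curve_Δ_ne_zero {h t : k} (hht : h ^ 3 + t ^ 2 ≠ 0) : (curve h t).Δ ≠ 0 := by
  rw [curve_Δ]
  exact mul_ne_zero (by norm_num) hht

/-- **K2b for the package**: the fibre of `(f, H, T)` is one orbit of the words in `gS, gT`. -/
theorem exists_word (C : Compat P) {v v' : k × k} (hf : P.f v ≠ 0) (hH : P.H v ≠ 0)
    (hT : P.T v ≠ 0) (e1 : P.f v' = P.f v) (e2 : P.H v' = P.H v) (e3 : P.T v' = P.T v) :
    ∃ w : List Bool, v' = applyWord P.gS P.gT w v := by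
  classical
  have hht := sum_ne_zero P hf
  have hΔ := curve_Δ_ne_zero hht
  have hv : v ∈ fibre (P.f v) (P.H v) (P.T v) := ⟨(C.f_eq v).symm, (C.H_eq v).symm, (C.T_eq v).symm⟩
  have hv' : v' ∈ fibre (P.f v) (P.H v) (P.T v) :=
    ⟨(C.f_eq v').symm.trans e1, (C.H_eq v').symm.trans e2, (C.T_eq v').symm.trans e3⟩
  have hmem : ∀ u ∈ fibre (P.f v) (P.H v) (P.T v), P.H u = P.H v ∧ P.T u = P.T v := by
    intro u hu
    exact ⟨(C.H_eq u).trans hu.2.1, (C.T_eq u).trans hu.2.2⟩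
  exact fibre_eq_orbit hf hH hT hht (preserves_gS C) (preserves_gT C)
    (basis (P := P) hΔ)
    (fun u hu => basis_gS hΔ (hmem u hu))
    (fun u hu => basis_gT hΔ (hmem u hu))
    hv (basis_indep hΔ (hmem v hv)) v' hv'

/-- **K2b with scalars**: the fibre of `(H, T)` is one orbit of `μ₅ ×` words. -/
theorem exists_scalar_word (C : Compat P) {ζ : k} (hζ : IsPrimitiveRoot ζ 5) {v v' : k × k}
    (hf : P.f v ≠ 0) (hH : P.H v ≠ 0) (hT : P.T v ≠ 0)
    (e2 : P.H v' = P.H v) (e3 : P.T v' = P.T v) :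
    ∃ (j : ℕ) (w : List Bool), v' = ζ ^ j • applyWord P.gS P.gT w v := by
  have hζ5 : ζ ^ 5 = 1 := hζ.pow_eq_one
  -- `f v' = ζ^i f v`
  have h5 : (P.f v' / P.f v) ^ 5 = 1 := by
    have h1 := P.syz v
    have h2 := P.syz v'
    rw [e2, e3] at h2
    have h3 : P.f v' ^ 5 = P.f v ^ 5 := by
      have : (1728 : k) * P.f v' ^ 5 = 1728 * P.f v ^ 5 := by rw [← h1, ← h2]
      exact mul_left_cancel₀ (by norm_num) this
    rw [div_pow, h3, div_self (pow_ne_zero 5 hf)]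
  obtain ⟨i, -, hi⟩ := hζ.eq_pow_of_pow_eq_one h5
  have hfi : P.f v' = ζ ^ i * P.f v := by
    rw [hi]; field_simp
  -- normalise `v'`
  obtain ⟨s1, s2, s3⟩ := forms_smul C (ζ ^ (2 * i)) v'
  have hp : ∀ n : ℕ, (ζ ^ (2 * i)) ^ n = ζ ^ (2 * i * n) := fun n => (pow_mul ζ (2 * i) n).symm
  have q1 : ζ ^ (2 * i * 12) * ζ ^ i = 1 := by
    rw [← pow_add, show 2 * i * 12 + i = 5 * (5 * i) by ring, pow_mul, hζ5, one_pow]
  have q2 : ζ ^ (2 * i * 20) = 1 := by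
    rw [show 2 * i * 20 = 5 * (8 * i) by ring, pow_mul, hζ5, one_pow]
  have q3 : ζ ^ (2 * i * 30) = 1 := by
    rw [show 2 * i * 30 = 5 * (12 * i) by ring, pow_mul, hζ5, one_pow]
  have f1 : P.f (ζ ^ (2 * i) • v') = P.f v := by
    rw [s1, hp, hfi, ← mul_assoc, q1, one_mul]
  have f2 : P.H (ζ ^ (2 * i) • v') = P.H v := by
    rw [s2, hp, q2, one_mul, e2]
  have f3 : P.T (ζ ^ (2 * i) • v') = P.T v := by
    rw [s3, hp, q3, one_mul, e3]
  obtain ⟨w, hw⟩ := exists_word C hf hH hT f1 f2 f3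
  refine ⟨3 * i, w, ?_⟩
  rw [← hw, smul_smul, ← pow_add, show 3 * i + 2 * i = 5 * i by ring, pow_mul, hζ5, one_pow,
    one_smul]

variable [IsAlgClosed k]

/-- **K2a for the package.** -/
theorem exists_fibre_point (C : Compat P) (h t : k) (hht : h ^ 3 + t ^ 2 ≠ 0) :
    ∃ v : k × k, P.H v = h ∧ P.T v = t := by
  obtain ⟨z1, z2, e1, e2⟩ := exists_preimage h t hht
  exact ⟨(z1, z2), by rw [C.H_eq]; exact e1, by rw [C.T_eq]; exact e2⟩

end Orbit

end Fermat.Agent.S52K2.FibresOfPts
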