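/-
Programme K (S52), brick K2b part 2 (helper11): `2 × 2` matrices over `ZMod 5` as explicit
4-tuples; an explicit list of 120 words in two generators whose values are pairwise distinct
(checked by kernel evaluation); and the abstract pigeonhole argument: if a set `Φ` with at most
120 elements is stable under two maps `sS, sT` which act on an attached pair `B v` (a basis of a
`ZMod 5`-plane) through the two generators, then every element of `Φ` is obtained from any given
`v ∈ Φ` by a word in `sS, sT`.
-/
import Mathlib

set_option autoImplicit false

namespace Fermat.Agent.S52K2.Words

/-- A `2 × 2` matrix `(a b; c d)` over `ZMod 5`. -/
structure M4 where
  a : ZMod 5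
  b : ZMod 5
  c : ZMod 5
  d : ZMod 5
deriving DecidableEq

namespace M4

def one : M4 := ⟨1, 0, 0, 1⟩

def mul (m n : M4) : M4 :=
  ⟨m.a * n.a + m.b * n.c, m.a * n.b + m.b * n.d, m.c * n.a + m.d * n.c, m.c * n.b + m.d * n.d⟩

end M4

/-- The value of a word (`true` = first generator, `false` = second generator), letters
multiplied on the right in the order of the word. -/
def evalWord (mS mT : M4) (w : List Bool) : M4 :=
  w.foldl (fun m b => m.mul (if b then mS else mT)) M4.one

theorem evalWord_nil (mS mT : M4) : evalWord mS mT [] = M4.one := rfl

theorem evalWord_append_singleton (mS mT : M4) (w : List Bool) (b : Bool) :
    evalWord mS mT (w ++ [b]) = (evalWord mS mT w).mul (if b then mS else mT) := by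
  simp [evalWord, List.foldl_append]

/-- The standard generators `S = (0 1; -1 0)`, `T = (1 1; 0 1)`. -/
def stdS : M4 := ⟨0, 1, -1, 0⟩
def stdT : M4 := ⟨1, 1, 0, 1⟩

/-- 120 words in `S, T` with pairwise distinct values (breadth-first enumeration of
`SL₂(𝔽₅)`). -/
def stdWords : List (List Bool) :=
  [[], [true], [false], [true, true], [true, false], [false, true], [false, false], [true, true, true], [true, true, false], [true, false, true], [true, false, false], [false, true, false], [false, false, true], [false, false, false], [true, true, true, false], [true, true, false, true], [true, true, false, false], [true, false, true, false], [true, false, false, true], [true, false, false, false], [false, true, false, true], [false, true, false, false], [false, false, true, false], [false, false, false, true], [false, false, false, false], [true, true, true, false, true], [true, true, true, false, false], [true, true, false, true, false], [true, true, false, false, true], [true, true, false, false, false], [true, false, true, false, false], [true, false, false, true, false], [true, false, false, false, true], [true, false, false, false, false], [false, true, false, false, true], [false, true, false, false, false], [false, false, true, false, true], [false, false, true, false, false], [false, false, false, true, false],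 [false, false, false, false, true], [true, true, true, false, false, true], [true, true, true, false, false, false], [true, true, false, true, false, false], [true, true, false, false, true, false], [true, true, false, false, false, true], [true, true, false, false, false, false], [true, false, true, false, false, true], [true, false, true, false, false, false], [true, false, false, true, false, true], [true, false, false, true, false, false], [true, false, false, false, true, false], [false, true, false, false, true, false], [false, true, false, false, false, true], [false, true, false, false, false, false], [false, false, true, false, false, true], [false, false, true, false, false, false], [false, false, false, true, false, true], [false, false, false, true, false, false], [false, false, false, false, true, false], [true, true, true, false, false, true, false], [true, true, false, true, false, false, true], [true, true, false, true, false, false, false], [true, true, false, false, true, false, false], [true, true, false, false, false, true, false], [true, false, true, false, false, false, true], [true, false, true, false, false, false, false], [true, false, false, true, false, false, true], [true, false, false, true, false, false, false], [true, false, false, false, true, false, true], [true, false, false, false,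 true, false, false], [false, true, false, false, true, false, false], [false, true, false, false, false, true, false], [false, false, true, false, false, true, false], [false, false, true, false, false, false, true], [false, false, true, false, false, false, false], [false, false, false, true, false, false, true], [false, false, false, true, false, false, false], [false, false, false, false, true, false, true], [false, false, false, false, true, false, false], [true, true, true, false, false, true, false, false], [true, true, false, false, true, false, false, true], [true, true, false, false, true, false, false, false], [true, true, false, false, false, true, false, false], [true, false, true, false, false, false, true, false], [true, false, false, true, false, false, true, false], [true, false, false, true, false, false, false, true], [true, false, false, true, false, false, false, false], [true, false, false, false, true, false, false, true], [true, false, false, false, true, false, false, false], [false, true, false, false, true, false, false, false], [false, true, false, false, false, true, false, false], [false, false, true, false, false, true, false, false], [false, false, true, false, false, false, true, false], [false, false, false, true, false, false, true, false], [true, true, true, false, false, true,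 false, false, true], [true, true, true, false, false, true, false, false, false], [true, true, false, false, false, true, false, false, true], [true, true, false, false, false, true, false, false, false], [true, false, true, false, false, false, true, false, false], [true, false, false, true, false, false, true, false, false], [true, false, false, true, false, false, false, true, false], [true, false, false, false, true, false, false, true, false], [false, true, false, false, true, false, false, false, true], [false, true, false, false, true, false, false, false, false], [false, true, false, false, false, true, false, false, true], [false, true, false, false, false, true, false, false, false], [false, false, true, false, false, true, false, false, false], [false, false, true, false, false, false, true, false, false], [false, false, false, true, false, false, true, false, false], [true, false, true, false, false, false, true, false, false, true], [true, false, true, false, false, false, true, false, false, false], [true, false, false, true, false, false, true, false, false, false], [true, false, false, true, false, false, false, true, false, false], [true, false, false, false, true, false, false, true, false, false], [false, false, true, false, false, true, false, false, false, true], [false, false, true, false, false,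 true, false, false, false, false], [false, false, true, false, false, false, true, false, false, true], [false, false, false, true, false, false, true, false, false, false], [true, false, false, true, false, false, true, false, false, false, true], [true, false, false, true, false, false, true, false, false, false, false]]

theorem length_stdWords : stdWords.length = 120 := by decide +kernel

theorem nodup_stdWords : (stdWords.map (evalWord stdS stdT)).Nodup := by decide +kernel

section Pigeonhole

variable {V A : Type*} [AddCommGroup A] [Module (ZMod 5) A]

/-- Right action of a matrix on a pair: `(Q, R) · (a b; c d) = (aQ + cR, bQ + dR)`. -/
def actM (m : M4) (p : A × A) : A × A := (m.a • p.1 + m.c • p.2, m.b • p.1 + m.d • p.2)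

theorem actM_one (p : A × A) : actM M4.one p = p := by
  simp [actM, M4.one]

theorem actM_mul (m n : M4) (p : A × A) : actM (m.mul n) p = actM n (actM m p) := by
  simp only [actM, M4.mul, add_smul, mul_smul, smul_add, Prod.mk.injEq]
  constructor
  · rw [smul_comm m.a n.a, smul_comm m.b n.c, smul_comm m.c n.a, smul_comm m.d n.c]
    abel
  · rw [smul_comm m.a n.b, smul_comm m.b n.d, smul_comm m.c n.b, smul_comm m.d n.d]
    abel

/-- Independence makes the action on a basis faithful. -/
theorem actM_injective {p : A × A}
    (hind : ∀ a b : ZMod 5, a • p.1 + b • p.2 = 0 → a = 0 ∧ b = 0) {m n : M4}
    (h : actM m p = actM n p) : m = n := by
  simp only [actM, Prod.mk.injEq] at h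
  obtain ⟨h1, h2⟩ := h
  have e1 : (m.a - n.a) • p.1 + (m.c - n.c) • p.2 = 0 := by
    rw [sub_smul, sub_smul]
    have : m.a • p.1 - n.a • p.1 + (m.c • p.2 - n.c • p.2)
        = (m.a • p.1 + m.c • p.2) - (n.a • p.1 + n.c • p.2) := by abel
    rw [this, h1, sub_self]
  have e2 : (m.b - n.b) • p.1 + (m.d - n.d) • p.2 = 0 := by
    rw [sub_smul, sub_smul]
    have : m.b • p.1 - n.b • p.1 + (m.d • p.2 - n.d • p.2)
        = (m.b • p.1 + m.d • p.2) - (n.b • p.1 + n.d • p.2) := by abel
    rw [this, h2, sub_self]
  obtain ⟨ha, hc⟩ := hind _ _ e1
  obtain ⟨hb, hd⟩ := hind _ _ e2
  cases m; cases n
  simp only [M4.mk.injEq]
  exact ⟨sub_eq_zero.mp ha, sub_eq_zero.mp hb, sub_eq_zero.mp hc, sub_eq_zero.mp hd⟩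

/-- The map attached to a word: letters applied in the order of the word (first letter first). -/
def applyWord (sS sT : V → V) (w : List Bool) (v : V) : V :=
  w.foldl (fun x b => if b then sS x else sT x) v

theorem applyWord_nil (sS sT : V → V) (v : V) : applyWord sS sT [] v = v := rfl

theorem applyWord_append_singleton (sS sT : V → V) (w : List Bool) (b : Bool) (v : V) :
    applyWord sS sT (w ++ [b]) v
      = if b then sS (applyWord sS sT w v) else sT (applyWord sS sT w v) := by
  simp [applyWord, List.foldl_append]

variable (Φ : Set V) (sS sT : V → V) (hS : ∀ v ∈ Φ, sS v ∈ Φ) (hT : ∀ v ∈ Φ, sT v ∈ Φ)
  (B : V → A × A) (mS mT : M4)
  (hBS : ∀ v ∈ Φ, B (sS v) = actM mS (B v)) (hBT : ∀ v ∈ Φ, B (sT v) = actM mT (B v))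

include hS hT in
theorem applyWord_mem {v : V} (hv : v ∈ Φ) (w : List Bool) : applyWord sS sT w v ∈ Φ := by
  induction w using List.reverseRecOn with
  | nil => exact hv
  | append_singleton w b ih =>
    rw [applyWord_append_singleton]
    cases b
    · simpa using hT _ ih
    · simpa using hS _ ih

include hS hT hBS hBT in
theorem B_applyWord {v : V} (hv : v ∈ Φ) (w : List Bool) :
    B (applyWord sS sT w v) = actM (evalWord mS mT w) (B v) := by
  induction w using List.reverseRecOn with
  | nil => rw [applyWord_nil, evalWord_nil, actM_one]
  | append_singleton w b ih =>
    rw [applyWord_append_singleton, evalWord_append_singleton, actM_mul, ← ih]
    have hmem := applyWord_mem Φ sS sT hS hT hv w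
    cases b
    · simpa using hBT _ hmem
    · simpa using hBS _ hmem

include hS hT hBS hBT in
/-- **Abstract orbit theorem.** -/
theorem exists_word (hfin : Φ.Finite) (hcard : Φ.ncard ≤ 120)
    (words : List (List Bool)) (hlen : words.length = 120)
    (hnodup : (words.map (evalWord mS mT)).Nodup)
    {v : V} (hv : v ∈ Φ)
    (hind : ∀ a b : ZMod 5, a • (B v).1 + b • (B v).2 = 0 → a = 0 ∧ b = 0) :
    ∀ v' ∈ Φ, ∃ w : List Bool, v' = applyWord sS sT w v := by
  classical
  have hwn : words.Nodup := List.Nodup.of_map _ hnodup
  have hinj : ∀ x ∈ words, ∀ y ∈ words, evalWord mS mT x = evalWord mS mT y → x = y :=
    fun x hx y hy h => List.inj_on_of_nodup_map hnodup hx hy h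
  set L : List V := words.map (fun w => applyWord sS sT w v) with hL
  have hLn : L.Nodup := by
    apply List.Nodup.map_on _ hwn
    intro x hx y hy hxy
    apply hinj x hx y hy
    apply actM_injective hind
    rw [← B_applyWord Φ sS sT hS hT B mS mT hBS hBT hv x,
      ← B_applyWord Φ sS sT hS hT B mS mT hBS hBT hv y, hxy]
  have hsub : (L.toFinset : Set V) ⊆ Φ := by
    intro x hx
    rw [Finset.mem_coe, List.mem_toFinset, hL, List.mem_map] at hx
    obtain ⟨w, _, rfl⟩ := hx
    exact applyWord_mem Φ sS sT hS hT hv w
  have hcardL : (L.toFinset : Set V).ncard = 120 := by
    rw [Set.ncard_coe_finset, List.toFinset_card_of_nodup hLn, hL, List.length_map, hlen]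
  have heq : (L.toFinset : Set V) = Φ :=
    Set.eq_of_subset_of_ncard_le hsub (by rw [hcardL]; exact hcard) hfin
  intro v' hv'
  rw [← heq, Finset.mem_coe, List.mem_toFinset, hL, List.mem_map] at hv'
  obtain ⟨w, _, rfl⟩ := hv'
  exact ⟨w, rfl⟩

end Pigeonhole

end Fermat.Agent.S52K2.Words
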