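/-
Programme K (S52), brick K2b (helper11): the fibre of `(f, H, T)` over `(f₀, h₀, t₀)`,
`f₀ h₀ t₀ ≠ 0`, is a single orbit of the monoid of words in two maps `sS, sT`, provided these
preserve `f, H, T` and act on an attached basis `B v` of a `ZMod 5`-plane (in the application:
the universal basis of the 5-torsion of `E : Y² = X³ + 27 h₀ X + 54 t₀`) through the standard
generators `S = (0 1; -1 0)`, `T = (1 1; 0 1)` of `SL₂(𝔽₅)`:
`B (sS v) = (-R, Q)`, `B (sT v) = (Q, Q + R)` for `B v = (Q, R)`.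

No enumeration of the binary icosahedral group is needed: the fibre has at most 120 elements
(`FibreCard`), and the 120 words of `Words.stdWords` give 120 distinct points.
-/
import Mathlib
import Fermat.Agent.S52K2.FibreCard
import Fermat.Agent.S52K2.Words

set_option autoImplicit false

namespace Fermat.Agent.S52K2.Orbit

open Fermat.Agent.S52K2.Forms Fermat.Agent.S52K2.FibreCard Fermat.Agent.S52K2.Words

variable {k : Type*} [Field k] {A : Type*} [AddCommGroup A] [Module (ZMod 5) A]

/-- A map of the plane preserving the three Klein forms. -/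
def Preserves (s : k × k → k × k) : Prop :=
  ∀ v : k × k, ff (s v).1 (s v).2 = ff v.1 v.2 ∧ Hf (s v).1 (s v).2 = Hf v.1 v.2 ∧
    Tf (s v).1 (s v).2 = Tf v.1 v.2

theorem Preserves.mem_fibre {s : k × k → k × k} (hs : Preserves s) {f0 h0 t0 : k} {v : k × k}
    (hv : v ∈ fibre f0 h0 t0) : s v ∈ fibre f0 h0 t0 := by
  obtain ⟨h1, h2, h3⟩ := hv
  obtain ⟨e1, e2, e3⟩ := hs v
  exact ⟨e1.trans h1, e2.trans h2, e3.trans h3⟩

theorem Preserves.applyWord {sS sT : k × k → k × k} (hS : Preserves sS) (hT : Preserves sT)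
    (w : List Bool) : Preserves (applyWord sS sT w) := by
  induction w using List.reverseRecOn with
  | nil => intro v; exact ⟨rfl, rfl, rfl⟩
  | append_singleton w b ih =>
    intro v
    rw [applyWord_append_singleton]
    obtain ⟨e1, e2, e3⟩ := ih v
    cases b
    · obtain ⟨a1, a2, a3⟩ := hT (Words.applyWord sS sT w v)
      exact ⟨by simpa using a1.trans e1, by simpa using a2.trans e2, by simpa using a3.trans e3⟩
    · obtain ⟨a1, a2, a3⟩ := hS (Words.applyWord sS sT w v)
      exact ⟨by simpa using a1.trans e1, by simpa using a2.trans e2, by simpa using a3.trans e3⟩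

/-- **K2b (hypothesis style).** -/
theorem fibre_eq_orbit {f0 h0 t0 : k} (hf0 : f0 ≠ 0) (hh0 : h0 ≠ 0) (ht0 : t0 ≠ 0)
    (hΔ : h0 ^ 3 + t0 ^ 2 ≠ 0)
    {sS sT : k × k → k × k} (hS : Preserves sS) (hT : Preserves sT)
    (B : k × k → A × A)
    (hBS : ∀ v ∈ fibre f0 h0 t0, B (sS v) = (-(B v).2, (B v).1))
    (hBT : ∀ v ∈ fibre f0 h0 t0, B (sT v) = ((B v).1, (B v).1 + (B v).2))
    {v : k × k} (hv : v ∈ fibre f0 h0 t0)
    (hind : ∀ a b : ZMod 5, a • (B v).1 + b • (B v).2 = 0 → a = 0 ∧ b = 0) :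
    ∀ v' ∈ fibre f0 h0 t0, ∃ w : List Bool, v' = applyWord sS sT w v := by
  obtain ⟨hfin, hcard⟩ := fibre_finite_card_le hf0 hh0 ht0 hΔ
  refine exists_word (fibre f0 h0 t0) sS sT (fun v hv => hS.mem_fibre hv)
    (fun v hv => hT.mem_fibre hv) B stdS stdT ?_ ?_ hfin hcard stdWords length_stdWords
    nodup_stdWords hv hind
  · intro v hv
    rw [hBS v hv]
    simp [actM, stdS]
  · intro v hv
    rw [hBT v hv]
    simp [actM, stdT]

end Fermat.Agent.S52K2.Orbit
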